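import Mathlib
import Fermat.Agent.LT.T6.Spec
import Fermat.Agent.LT.T6.SpecArch
import Fermat.Agent.LT.T6.H626.ArchCut
import Fermat.Agent.LT.T6.H189.ArchIntSpec

/-!
# Row LT, tower T6, leaf T6.20e (`EllMatchC626`): THE CUT, level 1 (helper634, registry 1481)

OFF-MAIN.  Vocabulary: `LT/T6/Spec.lean` v3 (sha256 8c5f2ae7), `LT/T6/SpecArch.lean` (003240b2)
of helper22, `LT/T6/H626/ArchCut.lean` (fac998d4) of helper626, `LT/T6/H189/ArchIntSpec.lean`
(4ac6c090) of helper189: byte-identical copies.  Definitions, Props and PROVED tops only;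
nothing is assumed.

## The explicit matching constant

For Haar measures `μ` of `GL₂(ℝ)`, `μ'` of `GL₂(ℂ)` let `c_I`, `c_I'` be the constants of the
Iwasawa formulas of `H189` (`μ|_{det>0} = c_I (iwaR)_* (du₁ du₂ dx dθ)`,
`μ' = c_I' (iwaC)_* (du₁ du₂ dw dκ)`, `κ` the Haar PROBABILITY measure of `U(2)`).  They are read
off from the measures of the Iwasawa unit boxes: `μ (boxR634) = 2π c_I`, `μ' (boxC634) = π c_I'`.

    cStar634 μ μ' := μ'(boxC634) / (4π μ(boxR634))  =  c_I' / (8π c_I).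

WHY THIS IS THE CONSTANT (normalisations of `H626.IsAbelRel626`, `SpecArch.IsArchMatch`).
Hyperbolic `γ = diag(a, b)`, `a, b > 0`, `δ = diag(√a, √b)`, `T` = all diagonal matrices,
`μT = λ · (du₁ du₂ ⊗ counting measure on the four sign components)`:
* `O_γ(f) = (π c_I / λ) |1 - b/a|⁻¹ ∫_ℝ f(γ n(x)) dx` for `f` of weight `0, ±1`
  (Iwasawa on `det > 0`, left translation by `diag(-1,1)` for `det < 0`,
  `∫₀^{2π} B(n k_θ) dθ = π/λ` because `B(y) + B(-y) = 1/λ`, `-1 = k_π`);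
* `TO_δ(φ) = (c_I' / (4 λ)) |1 - b/a|⁻¹ ∫_ℂ φ(δ n(w)) dw`
  (`n(-w) δ n(w̄) = δ n(w̄ - √(b/a) w)`, real Jacobian `|1 - b/a|`; the four sign matrices lie in
  `U(2)` and `w ↦ φ(δ n(w))` is even).
With `F_{f₀} = F_{f₁} = c F_φ ∘ √` (`IsAbelRel626 c`): `O_γ(f₀ + f₁) = TO_δ(φ)` iff
`2π c c_I = c_I' / 4`.
Elliptic `γ = e^{r} k_θ`, `δ = e^{r/2} k_{θ/2}`, `T = {e^{r'} k_α}`, `μT = λ · dr' dα`
(`α ∈ (0, 2π]`), polar constants `c_P`, `c_P'` of `H189.PolarRC`, `H189.PolarCC`: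
* `O_γ(f₀ + f₁) = (4π c_P / λ) (ellDown g₀ θ + √2 cos θ · ellDown G₁ θ)`, `G₁ = g₁ / √(ρ + 1)`
  (profiles at `det = e^{2r}`; the component `det x < 0` contributes the integral at `k_{-θ}`);
* `TO_δ(φ) = (c_P' / (4π λ)) ellUp Φ θ` (Fermi coordinates `x = t a_τ a_b u`,
  `dμ' = (c_P'/4π) dr' dα · 2 cosh²(2b) sinh τ db dτ dκ(u)`, `β = 2b`);
* `c_P = c_I`, `c_P' = 4π c_I'` (the two-variable calculus `AbelArea` of `H189`);
* `H781.ArchEllIdC` with `κ = 2π c`:
  `ellDown g₀ θ + √2 cos θ ellDown G₁ θ = 2 c · ellUp Φ θ`.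
So `O_γ(f₀ + f₁) = TO_δ(φ)` iff `8π c c_P = c_P' / (4π)`, the SAME condition `c = c_I'/(8π c_I)`.

## Level 1

    EllMatchC626  ⇐  HypValueC634 + EllValueC634                 (`ellMatchC626_of634`, PROVED)
    GeoMatchC626  ⇐  HypExplC634  + EllValueC634                 (`geoMatch_of_expl634`, PROVED)

* `HypValueC634` : every matching constant `c > 0` on `{disc > 0}` is `cStar634 μ μ'`
  (one witness `γ, δ, μT, β, β', φ` with `TO_δ(φ) ≠ 0`, `AbelExistC626`, and the two hyperbolic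
  formulas above);
* `EllValueC634` : `cStar634 μ μ'` is a matching constant on `{disc < 0}` (level 2:
  `EllCut2.lean`);
* `HypExplC634`  : `cStar634 μ μ' > 0` is a matching constant on `{disc > 0}` (= `HypMatchC626`
  with its constant made explicit; offered to the owner of T6.20d: with it `GeoMatchC626` needs
  neither the uniqueness of the constant nor `AbelExistC626`).
-/

set_option autoImplicit false

open scoped Matrix
open MeasureTheory

noncomputable section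

namespace Fermat.Agent.LT.T6.H634

open Fermat.Agent.LT.T6 Fermat.Agent.LT.T6.H626 Fermat.Agent.LT.T6.H189

/-- The Iwasawa unit box of `GL₂(ℝ)⁺`: `diag(e^{u₁}, e^{u₂}) n(x) k_θ` with `u₁, u₂, x ∈ [0, 1]`,
`θ ∈ (0, 2π]`.  For a Haar measure with Iwasawa constant `c_I`: `μ (boxR634) = 2π c_I`. -/
def boxR634 : Set (GL (Fin 2) ℝ) :=
  iwaR '' (Set.Icc (0 : ℝ) 1 ×ˢ Set.Icc (0 : ℝ) 1 ×ˢ Set.Icc (0 : ℝ) 1 ×ˢ
    Set.Ioc (0 : ℝ) (2 * Real.pi))

/-- The Iwasawa unit box of `GL₂(ℂ)`: `diag(e^{u₁}, e^{u₂}) n(w) k` with `u₁, u₂ ∈ [0, 1]`,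
`|w| ≤ 1`, `k ∈ U(2)`.  For a Haar measure with Iwasawa constant `c_I'`: `μ' (boxC634) = π c_I'`. -/
def boxC634 : Set (GL (Fin 2) ℂ) :=
  iwaC '' (Set.Icc (0 : ℝ) 1 ×ˢ Set.Icc (0 : ℝ) 1 ×ˢ Metric.closedBall (0 : ℂ) 1 ×ˢ U2)

/-- **THE matching constant** of the Haar measures `μ`, `μ'`:
`μ'(boxC634) / (4π μ(boxR634)) = c_I' / (8π c_I)`. -/
def cStar634 (μ : @Measure (GL (Fin 2) ℝ) (borel _)) (μ' : @Measure (GL (Fin 2) ℂ) (borel _)) :
    ℝ :=
  (μ' boxC634).toReal / (4 * Real.pi * (μ boxR634).toReal)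

/-- **T6.20e.1 (value of the hyperbolic matching constant).**  Every matching constant `c > 0`
on `{disc > 0}` is `cStar634 μ μ'`.  (`AbelExistC626` is a hypothesis: it provides `f₀`, `f₁` for
one test function `φ ≥ 0`, `φ ≠ 0`.) -/
def HypValueC634 : Prop :=
  AbelExistC626 →
  ∀ (μ : @Measure (GL (Fin 2) ℝ) (borel _)) (μ' : @Measure (GL (Fin 2) ℂ) (borel _)),
    @Measure.IsHaarMeasure _ _ _ (borel _) μ → @Measure.IsHaarMeasure _ _ _ (borel _) μ' →
    ∀ c : ℝ, 0 < c → IsMatchConstOn626 (fun γ => 0 < disc γ) μ μ' c → c = cStar634 μ μ'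

/-- **T6.20e.2 (the elliptic matching with the explicit constant).**  `cStar634 μ μ'` is a
matching constant on `{disc < 0}`. -/
def EllValueC634 : Prop :=
  ∀ (μ : @Measure (GL (Fin 2) ℝ) (borel _)) (μ' : @Measure (GL (Fin 2) ℂ) (borel _)),
    @Measure.IsHaarMeasure _ _ _ (borel _) μ → @Measure.IsHaarMeasure _ _ _ (borel _) μ' →
    IsMatchConstOn626 (fun γ => disc γ < 0) μ μ' (cStar634 μ μ')

/-- **T6.20d' (the hyperbolic matching with the explicit constant)**: `cStar634 μ μ'` is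
positive and is a matching constant on `{disc > 0}`. -/
def HypExplC634 : Prop :=
  ∀ (μ : @Measure (GL (Fin 2) ℝ) (borel _)) (μ' : @Measure (GL (Fin 2) ℂ) (borel _)),
    @Measure.IsHaarMeasure _ _ _ (borel _) μ → @Measure.IsHaarMeasure _ _ _ (borel _) μ' →
    0 < cStar634 μ μ' ∧ IsMatchConstOn626 (fun γ => 0 < disc γ) μ μ' (cStar634 μ μ')

/-- **TOP of T6.20e, level 1**: `EllMatchC626` (VERBATIM) from the two parts. -/
theorem ellMatchC626_of634 (hV : HypValueC634) (hE : EllValueC634) : EllMatchC626 := by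
  intro hA μ μ' hμ hμ' c hc hM
  have hcs : c = cStar634 μ μ' := hV hA μ μ' hμ hμ' c hc hM
  rw [hcs]
  exact hE μ μ' hμ hμ'

/-- `HypMatchC626` (VERBATIM) from its explicit form. -/
theorem hypMatchC626_of_expl634 (hH : HypExplC634) : HypMatchC626 :=
  fun μ μ' hμ hμ' => ⟨cStar634 μ μ', (hH μ μ' hμ hμ').1, (hH μ μ' hμ hμ').2⟩

/-- **`GeoMatchC626` (VERBATIM) from the two explicit parts**: no uniqueness of the constant
and no `AbelExistC626` is needed on this route. -/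
theorem geoMatch_of_expl634 (hH : HypExplC634) (hE : EllValueC634) : GeoMatchC626 := by
  intro μ μ' hμ hμ'
  obtain ⟨hpos, hM⟩ := hH μ μ' hμ hμ'
  have hM' := hE μ μ' hμ hμ'
  refine ⟨cStar634 μ μ', hpos, fun n hn φ f₀ f₁ hφ hf₀ hf₁ hA => ?_⟩
  exact (isArchMatch_iff_on626 μ μ' φ _).1
    (isArchMatch_of_hyp_ell626 μ μ' φ _ (hM n hn φ f₀ f₁ hφ hf₀ hf₁ hA)
      (hM' n hn φ f₀ f₁ hφ hf₀ hf₁ hA))

/-- **TOP of the station T6.20 on the explicit route.** -/
theorem archMatchC_of_expl634 (hA : AbelExistC626) (hH : HypExplC634) (hE : EllValueC634)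
    (hS : SpecRelC626) : ArchMatchC :=
  archMatchC_of_cut626 hA (geoMatch_of_expl634 hH hE) hS

end Fermat.Agent.LT.T6.H634

end
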