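import Mathlib
import Fermat.Agent.LT.T6.Spec
import Fermat.Agent.LT.T6.SpecArch
import Fermat.Agent.LT.T6.H626.ArchCut
import Fermat.Agent.LT.T6.H189.ArchIntSpec
import Fermat.Agent.LT.T6.H781.EllSpec
import Fermat.Agent.LT.T6.H634.EllCut

/-!
# Row LT, tower T6, station T6.20e.2 (`EllValueC634`): THE CUT, level 2 (helper634)

OFF-MAIN.  Definitions, Props and the PROVED top `ellValue_of634`; nothing is assumed.
Vocabulary: `EllCut.lean` (level 1), `H189/ArchIntSpec.lean` (`dgR`, `dgC`, `ArchIntOut`),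
`H781/EllSpec.lean` (`abelT`, `tailI`, `ellDown`, `ellUp`, `IsProfile`, `ArchEllIdC`),
byte-identical copies.

    EllValueC634 ⇐ EllNormC634 + (ArchIntOut → BoxPosC634) + ProfAbelC634 + H781.ArchEllIdC
                     + (ArchIntOut → EllRealC634) + (ArchIntOut → EllTwC634) + ArchIntOut

(the owners of `BoxPosC634`, `EllRealC634`, `EllTwC634` may use the integration formulas
`H189.ArchIntOut` as a hypothesis; with them `μ (boxR634) = 2π c_I`, `μ' (boxC634) = π c_I'` for the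
Iwasawa constants `c_I`, `c_I'`, and the polar constant of `GL₂(ℝ)⁺` is `c_P = c_I`).

## Intrinsic data of an elliptic `γ ∈ GL₂(ℝ)` (`disc γ < 0`, hence `det γ > 0`)

* `D = det γ`, `θ = thetaOf634 γ = arccos (tr γ / (2 √D)) ∈ (0, π)`
  (`γ` is conjugate in `GL₂(ℝ)` to `√D k_θ`; only `cos θ`, `sin² θ`, `sin² (θ/2)` occur);
* the centraliser `T = twCentSub id γ = ℝ[γ]ˣ ≅ ℂˣ`; a Haar measure `μT` of `T` is
  `λ · dr' dα` in the coordinates `t = g (e^{r'} k_α) g⁻¹`, `α ∈ (0, 2π]`, with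
  `λ = lamT634 γ μT := μT {t | 1 ≤ det t ≤ e²} / (2π)`.

## Profiles (`t = radT634 ρ = arcosh ρ`)

* `prof0_634 f D ρ = f(√D a_t)` (weight `0` and `±1`: the value on the positive torus),
* `prof1_634 f D ρ = f(√D a_t) / √(ρ + 1)`                       (`G₁` of `H781`),
* `profC634 φ D ρ = φ(D^{1/4} a_t)` on `GL₂(ℂ)`                  (`Φ` of `H781` at `|det| = √D`).

## The leaves

* `EllNormC634` (algebra): every `γ` with `disc γ < 0` is a norm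
  (`δ = (γ + √D) / √(tr γ + 2 √D)` is real and `δ² = γ`).
* `BoxPosC634` : `0 < μ (boxR634) < ∞` for a Haar measure.
* `ProfAbelC634` : the profiles are profiles, and `IsAbelRel626 c φ f₀ f₁` is the Abel matching
  of `H781.ArchEllIdC` with `κ = 2π c`.
* `EllRealC634` (= T6.27, real side, FINAL FORM): the orbital integral of `f₀ + f₁` at `γ`,
  `= (4π c_I / λ) (ellDown g₀ θ + √2 cos θ · ellDown G₁ θ)`, `c_I = cR634 μ = μ(boxR634)/(2π)`.
* `EllTwC634` (= T6.26 + T6.27, twisted side, FINAL FORM): the twisted orbital integral of `φ`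
  at any `δ` with `δ δ̄ = γ`, `= (c_I' / λ) ellUp Φ θ`, `c_I' = cC634 μ' = μ'(boxC634)/π`.
Derivations of the two formulas and of the constants: header of `EllCut.lean`.
-/

set_option autoImplicit false

open scoped Matrix
open MeasureTheory

noncomputable section

namespace Fermat.Agent.LT.T6.H634

open Fermat.Agent.LT.T6 Fermat.Agent.LT.T6.H626 Fermat.Agent.LT.T6.H189
open Fermat.Agent.LT.T6.H781

/-! ## 1. Vocabulary -/

/-- The Iwasawa (= polar) constant of a Haar measure of `GL₂(ℝ)`: `μ (boxR634) / (2π)`. -/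
def cR634 (μ : @Measure (GL (Fin 2) ℝ) (borel _)) : ℝ := (μ boxR634).toReal / (2 * Real.pi)

/-- The Iwasawa constant of a Haar measure of `GL₂(ℂ)`: `μ' (boxC634) / π`. -/
def cC634 (μ' : @Measure (GL (Fin 2) ℂ) (borel _)) : ℝ := (μ' boxC634).toReal / Real.pi

/-- The angle of an elliptic `γ`: `arccos (tr γ / (2 √(det γ)))`. -/
def thetaOf634 (γ : GL (Fin 2) ℝ) : ℝ :=
  Real.arccos ((γ : Matrix (Fin 2) (Fin 2) ℝ).trace /
    (2 * Real.sqrt (γ : Matrix (Fin 2) (Fin 2) ℝ).det))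

/-- The normalisation `λ` of a Haar measure of the centraliser of an elliptic `γ`:
`μT {t | 1 ≤ det t ≤ e²} / (2π)`. -/
def lamT634 (γ : GL (Fin 2) ℝ)
    (μT : @Measure (twCentSub (MonoidHom.id (GL (Fin 2) ℝ)) γ) (borel _)) : ℝ :=
  (μT {t | 1 ≤ ((t : GL (Fin 2) ℝ) : Matrix (Fin 2) (Fin 2) ℝ).det ∧
      ((t : GL (Fin 2) ℝ) : Matrix (Fin 2) (Fin 2) ℝ).det ≤ Real.exp 2}).toReal /
    (2 * Real.pi)

/-- `arcosh ρ = log (ρ + √(ρ² - 1))`. -/
def radT634 (ρ : ℝ) : ℝ := Real.log (ρ + Real.sqrt (ρ ^ 2 - 1))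

/-- The profile of `f` on `GL₂(ℝ)` at determinant `D`: `ρ ↦ f(√D a_t)`, `cosh t = ρ`. -/
def prof0_634 (f : GL (Fin 2) ℝ → ℂ) (D ρ : ℝ) : ℂ :=
  f (dgR (Real.log D / 2 + radT634 ρ / 2) (Real.log D / 2 - radT634 ρ / 2))

/-- The weight-one profile `G₁` of `H781`: `ρ ↦ f(√D a_t) / √(ρ + 1)`. -/
def prof1_634 (f : GL (Fin 2) ℝ → ℂ) (D ρ : ℝ) : ℂ :=
  prof0_634 f D ρ / ((Real.sqrt (ρ + 1) : ℝ) : ℂ)

/-- The profile of `φ` on `GL₂(ℂ)` at `|det| = √D`: `ρ ↦ φ(D^{1/4} a_t)`, `cosh t = ρ`. -/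
def profC634 (φ : GL (Fin 2) ℂ → ℂ) (D ρ : ℝ) : ℂ :=
  φ (dgC (Real.log D / 4 + radT634 ρ / 2) (Real.log D / 4 - radT634 ρ / 2))

/-! ## 2. The leaves -/

/-- **T6.20e.2a (algebra).**  Every `γ ∈ GL₂(ℝ)` with negative discriminant is a norm from
`GL₂(ℂ)`. -/
def EllNormC634 : Prop :=
  ∀ γ : GL (Fin 2) ℝ, disc γ < 0 →
    IsNormFrom 2 (algebraMap ℝ ℂ) (starRingAut : ℂ ≃+* ℂ) γ

/-- **T6.20e.2b.**  The Iwasawa unit box has positive finite measure. -/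
def BoxPosC634 : Prop :=
  ∀ μ : @Measure (GL (Fin 2) ℝ) (borel _), @Measure.IsHaarMeasure _ _ _ (borel _) μ →
    0 < (μ boxR634).toReal

/-- **T6.20e.2c (profiles and the Abel relation).**  For test functions in the Abel relation
with constant `c` and every `D > 0`: the three profiles at determinant `D` are profiles in the
sense of `H781`, Abel-matched with the constant `κ = 2π c`. -/
def ProfAbelC634 : Prop :=
  ∀ (c : ℂ) (n : ℤ), n = 1 ∨ n = -1 →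
    ∀ (φ : GL (Fin 2) ℂ → ℂ) (f₀ f₁ : GL (Fin 2) ℝ → ℂ),
      IsArchTestC φ → IsArchTestR 0 f₀ → IsArchTestR n f₁ → IsAbelRel626 c φ f₀ f₁ →
      ∀ D : ℝ, 0 < D →
        IsProfile (prof0_634 f₀ D) ∧ IsProfile (prof1_634 f₁ D) ∧ IsProfile (profC634 φ D) ∧
        (∀ x : ℝ, 1 ≤ x →
          abelT (prof0_634 f₀ D) x
            = ((2 * Real.pi : ℝ) : ℂ) * c * tailI (profC634 φ D) (Real.sqrt ((x + 1) / 2)) /
                ((Real.sqrt 2 : ℝ) : ℂ)) ∧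
        (∀ x : ℝ, 1 ≤ x →
          abelT (prof1_634 f₁ D) x
            = ((2 * Real.pi : ℝ) : ℂ) * c * tailI (profC634 φ D) (Real.sqrt ((x + 1) / 2)) /
                ((2 * Real.sqrt ((x + 1) / 2) : ℝ) : ℂ))

/-- **T6.20e.2d (the elliptic orbital integral on `GL₂(ℝ)`, final form of T6.27).**
For `f₀` of weight `0`, `f₁` of weight `n = ±1`, `γ` with `disc γ < 0`, a Haar measure `μT` of
its centraliser and a cut-off `β`:
`∫ (f₀ + f₁)(x⁻¹ γ x) β(x) dμ(x) = (4π c_I / λ) (ellDown g₀ θ + √2 cos θ · ellDown G₁ θ)`. -/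
def EllRealC634 : Prop :=
  ∀ (μ : @Measure (GL (Fin 2) ℝ) (borel _)), @Measure.IsHaarMeasure _ _ _ (borel _) μ →
    ∀ n : ℤ, n = 1 ∨ n = -1 →
    ∀ f₀ f₁ : GL (Fin 2) ℝ → ℂ, IsArchTestR 0 f₀ → IsArchTestR n f₁ →
    ∀ γ : GL (Fin 2) ℝ, disc γ < 0 →
    ∀ μT : @Measure (twCentSub (MonoidHom.id (GL (Fin 2) ℝ)) γ) (borel _),
      @Measure.IsHaarMeasure _ _ _ (borel _) μT →
    ∀ β : GL (Fin 2) ℝ → ℝ, Continuous β → (∀ x, 0 ≤ β x) →
      (∀ x : GL (Fin 2) ℝ,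
        @integral _ _ _ _ (borel _) μT
          (fun t : twCentSub (MonoidHom.id (GL (Fin 2) ℝ)) γ =>
            β ((t : GL (Fin 2) ℝ) * x)) = 1) →
      @integral _ _ _ _ (borel _) μ
          (fun x : GL (Fin 2) ℝ =>
            (f₀ (x⁻¹ * γ * x) + f₁ (x⁻¹ * γ * x)) * (β x : ℂ))
        = ((4 * Real.pi * cR634 μ / lamT634 γ μT : ℝ) : ℂ) *
            (ellDown (prof0_634 f₀ (γ : Matrix (Fin 2) (Fin 2) ℝ).det) (thetaOf634 γ) +
              ((Real.sqrt 2 * Real.cos (thetaOf634 γ) : ℝ) : ℂ) *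
                ellDown (prof1_634 f₁ (γ : Matrix (Fin 2) (Fin 2) ℝ).det) (thetaOf634 γ))

/-- **T6.20e.2e (the twisted elliptic orbital integral on `GL₂(ℂ)`, final form of
T6.26 + T6.27).**  For a bi-`U(2)`-invariant test function `φ`, `γ ∈ GL₂(ℝ)` with `disc γ < 0`,
`δ` with `δ δ̄ = γ`, a Haar measure `μT` of the centraliser of `γ` and a cut-off `β'`:
`∫ φ(x⁻¹ δ x̄) β'(x) dμ'(x) = (c_I' / λ) ellUp Φ θ`. -/
def EllTwC634 : Prop :=
  ∀ (μ' : @Measure (GL (Fin 2) ℂ) (borel _)), @Measure.IsHaarMeasure _ _ _ (borel _) μ' →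
    ∀ φ : GL (Fin 2) ℂ → ℂ, IsArchTestC φ →
    ∀ γ : GL (Fin 2) ℝ, disc γ < 0 →
    ∀ μT : @Measure (twCentSub (MonoidHom.id (GL (Fin 2) ℝ)) γ) (borel _),
      @Measure.IsHaarMeasure _ _ _ (borel _) μT →
    ∀ δ : GL (Fin 2) ℂ,
      twNorm (starRingAut : ℂ ≃+* ℂ) 2 δ = Matrix.GeneralLinearGroup.map (algebraMap ℝ ℂ) γ →
    ∀ β' : GL (Fin 2) ℂ → ℝ, Continuous β' → (∀ x, 0 ≤ β' x) →
      (∀ x : GL (Fin 2) ℂ,
        @integral _ _ _ _ (borel _) μT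
          (fun t : twCentSub (MonoidHom.id (GL (Fin 2) ℝ)) γ =>
            β' (Matrix.GeneralLinearGroup.map (algebraMap ℝ ℂ) (t : GL (Fin 2) ℝ) * x))
          = 1) →
      @integral _ _ _ _ (borel _) μ'
          (fun x : GL (Fin 2) ℂ =>
            φ (x⁻¹ * δ * glAut (starRingAut : ℂ ≃+* ℂ) x) * (β' x : ℂ))
        = ((cC634 μ' / lamT634 γ μT : ℝ) : ℂ) *
            ellUp (profC634 φ (γ : Matrix (Fin 2) (Fin 2) ℝ).det) (thetaOf634 γ)

/-! ## 3. Elementary facts about the angle -/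

/-- `disc γ < 0` forces `det γ > 0`. -/
theorem det_pos_of_disc_neg634 (γ : GL (Fin 2) ℝ) (h : disc γ < 0) :
    0 < (γ : Matrix (Fin 2) (Fin 2) ℝ).det := by
  unfold disc at h
  nlinarith [sq_nonneg ((γ : Matrix (Fin 2) (Fin 2) ℝ).trace)]

/-- For `disc γ < 0` the angle is regular: `sin θ ≠ 0`. -/
theorem sin_thetaOf_ne_zero634 (γ : GL (Fin 2) ℝ) (h : disc γ < 0) :
    Real.sin (thetaOf634 γ) ≠ 0 := by
  have hD := det_pos_of_disc_neg634 γ h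
  set D := (γ : Matrix (Fin 2) (Fin 2) ℝ).det with hDdef
  set t := (γ : Matrix (Fin 2) (Fin 2) ℝ).trace with htdef
  have hs : 0 < Real.sqrt D := Real.sqrt_pos.mpr hD
  have hsq : Real.sqrt D ^ 2 = D := Real.sq_sqrt hD.le
  have hlt : t ^ 2 < 4 * D := by
    have : t ^ 2 - 4 * D < 0 := h
    linarith
  have hq : (t / (2 * Real.sqrt D)) ^ 2 < 1 := by
    rw [div_pow, div_lt_one (by positivity)]
    nlinarith
  have habs : |t / (2 * Real.sqrt D)| < 1 := (sq_lt_one_iff_abs_lt_one _).mp hq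
  have h1 : -1 < t / (2 * Real.sqrt D) := (abs_lt.mp habs).1
  have h2 : t / (2 * Real.sqrt D) < 1 := (abs_lt.mp habs).2
  unfold thetaOf634
  rw [Real.sin_arccos]
  have hpos : 0 < 1 - (t / (2 * Real.sqrt D)) ^ 2 := by linarith
  exact (Real.sqrt_pos.mpr hpos).ne'

/-! ## 4. The top -/

/-- **TOP of the station T6.20e.2**: `EllValueC634` from the leaves. -/
theorem ellValue_of634 (hInt : ArchIntOut) (hN : EllNormC634) (hB : ArchIntOut → BoxPosC634)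
    (hP : ProfAbelC634) (hId : ArchEllIdC)
    (hR : ArchIntOut → EllRealC634) (hT : ArchIntOut → EllTwC634) : EllValueC634 := by
  intro μ μ' hμ hμ' n hn φ f₀ f₁ hφ hf₀ hf₁ hA γ hγ hdisc μT hμT β hβc hβ0 hβ1
  refine ⟨?_, fun hnot => absurd (hN γ hdisc) hnot⟩
  intro δ hδ β' hβ'c hβ'0 hβ'1
  have hD := det_pos_of_disc_neg634 γ hdisc
  have hsin := sin_thetaOf_ne_zero634 γ hdisc
  obtain ⟨hp0, hp1, hpC, hab0, hab1⟩ :=
    hP ((cStar634 μ μ' : ℝ) : ℂ) n hn φ f₀ f₁ hφ hf₀ hf₁ hA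
      (γ : Matrix (Fin 2) (Fin 2) ℝ).det hD
  have hid := hId (prof0_634 f₀ (γ : Matrix (Fin 2) (Fin 2) ℝ).det)
    (prof1_634 f₁ (γ : Matrix (Fin 2) (Fin 2) ℝ).det)
    (profC634 φ (γ : Matrix (Fin 2) (Fin 2) ℝ).det)
    (((2 * Real.pi : ℝ) : ℂ) * ((cStar634 μ μ' : ℝ) : ℂ)) hp0 hp1 hpC hab0 hab1
    (thetaOf634 γ) hsin
  have hreal := hR hInt μ hμ n hn f₀ f₁ hf₀ hf₁ γ hdisc μT hμT β hβc hβ0 hβ1
  have htw := hT hInt μ' hμ' φ hφ γ hdisc μT hμT δ hδ β' hβ'c hβ'0 hβ'1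
  have hbox := hB hInt μ hμ
  show @integral _ _ _ _ (borel _) μ
      (fun x : GL (Fin 2) ℝ => (f₀ (x⁻¹ * γ * x) + f₁ (x⁻¹ * γ * x)) * (β x : ℂ)) = _
  rw [hreal, htw, hid]
  have hpi : (Real.pi : ℝ) ≠ 0 := Real.pi_ne_zero
  have hconst : 4 * Real.pi * cR634 μ / lamT634 γ μT * (2 * cStar634 μ μ')
      = cC634 μ' / lamT634 γ μT := by
    unfold cR634 cC634 cStar634
    field_simp
  have hpiC : ((Real.pi : ℝ) : ℂ) ≠ 0 := by exact_mod_cast hpi
  have hconstC : ((4 * Real.pi * cR634 μ / lamT634 γ μT : ℝ) : ℂ) *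
      (((2 * Real.pi : ℝ) : ℂ) * ((cStar634 μ μ' : ℝ) : ℂ) / ((Real.pi : ℝ) : ℂ))
      = ((cC634 μ' / lamT634 γ μT : ℝ) : ℂ) := by
    rw [← hconst]
    push_cast
    field_simp
  rw [← mul_assoc, hconstC]

end Fermat.Agent.LT.T6.H634

end
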