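import Mathlib
import Fermat.Agent.LT.T6.H189.ArchIntSpec
import Fermat.Agent.LT.T6.H634.EllCut2

/-!
# Row LT, tower T6, leaf T6.20e.2b `BoxPosC634` (registry 1730): PROVED from `H189.ArchIntOut`
(helper634)

OFF-MAIN.  `0 < (μ boxR634).toReal` for every Haar measure `μ` of `GL₂(ℝ)`:

* `μ boxR634 < ∞`: `boxR634` lies in the compact set `iwaR '' ([0,1]³ × [0, 2π])`;
* `0 < μ boxR634`: by the Iwasawa formula `μ|_{det>0} = c • (iwaR)_* (du₁ du₂ dx dθ)`, `c ≠ 0`,
  `μ boxR634 ≥ c · vol ([0,1]³ × (0, 2π]) = 2π c`.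
-/

set_option autoImplicit false

open scoped Matrix ENNReal
open MeasureTheory

noncomputable section

namespace Fermat.Agent.LT.T6.H634

open Fermat.Agent.LT.T6 Fermat.Agent.LT.T6.H189

/-! ## Continuity of the Iwasawa map -/

theorem continuous_mat634 {X : Type*} [TopologicalSpace X] {a b c d : X → ℝ}
    (ha : Continuous a) (hb : Continuous b) (hc : Continuous c) (hd : Continuous d) :
    Continuous fun x => (!![a x, b x; c x, d x] : Matrix (Fin 2) (Fin 2) ℝ) := by
  apply continuous_matrix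
  intro i j
  fin_cases i <;> fin_cases j
  · exact ha
  · exact hb
  · exact hc
  · exact hd

theorem dgR_val634 (u₁ u₂ : ℝ) :
    ((dgR u₁ u₂ : GL (Fin 2) ℝ) : Matrix (Fin 2) (Fin 2) ℝ)
      = !![Real.exp u₁, 0; 0, Real.exp u₂] := rfl

theorem unR_val634 (x : ℝ) :
    ((unR x : GL (Fin 2) ℝ) : Matrix (Fin 2) (Fin 2) ℝ) = !![1, x; 0, 1] := rfl

theorem rotR_val634 (θ : ℝ) :
    ((rotR θ : GL (Fin 2) ℝ) : Matrix (Fin 2) (Fin 2) ℝ)
      = !![Real.cos θ, -Real.sin θ; Real.sin θ, Real.cos θ] := rfl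

theorem dgR_inv634 (u₁ u₂ : ℝ) : (dgR u₁ u₂)⁻¹ = dgR (-u₁) (-u₂) := by
  apply inv_eq_of_mul_eq_one_right
  apply Units.ext
  rw [Matrix.GeneralLinearGroup.coe_mul, dgR_val634, dgR_val634]
  ext i j
  fin_cases i <;> fin_cases j <;>
    simp [Matrix.mul_apply, Fin.sum_univ_two, ← Real.exp_add]

theorem unR_inv634 (x : ℝ) : (unR x)⁻¹ = unR (-x) := by
  apply inv_eq_of_mul_eq_one_right
  apply Units.ext
  rw [Matrix.GeneralLinearGroup.coe_mul, unR_val634, unR_val634]
  ext i j
  fin_cases i <;> fin_cases j <;> simp [Matrix.mul_apply, Fin.sum_univ_two]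

theorem rotR_inv634 (θ : ℝ) : (rotR θ)⁻¹ = rotR (-θ) := by
  apply inv_eq_of_mul_eq_one_right
  apply Units.ext
  rw [Matrix.GeneralLinearGroup.coe_mul, rotR_val634, rotR_val634]
  have h := Real.cos_sq_add_sin_sq θ
  ext i j
  fin_cases i <;> fin_cases j <;>
    simp [Matrix.mul_apply, Fin.sum_univ_two] <;> nlinarith [h]

theorem continuous_dgR634 : Continuous fun p : ℝ × ℝ => dgR p.1 p.2 := by
  rw [Units.continuous_iff]
  constructor
  · show Continuous fun p : ℝ × ℝ =>
      (!![Real.exp p.1, 0; 0, Real.exp p.2] : Matrix (Fin 2) (Fin 2) ℝ)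
    exact continuous_mat634 (Real.continuous_exp.comp continuous_fst) continuous_const
      continuous_const (Real.continuous_exp.comp continuous_snd)
  · have e : (fun p : ℝ × ℝ => (((dgR p.1 p.2)⁻¹ : GL (Fin 2) ℝ) : Matrix (Fin 2) (Fin 2) ℝ))
        = fun p : ℝ × ℝ =>
          (!![Real.exp (-p.1), 0; 0, Real.exp (-p.2)] : Matrix (Fin 2) (Fin 2) ℝ) := by
      funext p
      rw [dgR_inv634, dgR_val634]
    rw [e]
    exact continuous_mat634 (Real.continuous_exp.comp continuous_fst.neg) continuous_const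
      continuous_const (Real.continuous_exp.comp continuous_snd.neg)

theorem continuous_unR634 : Continuous unR := by
  rw [Units.continuous_iff]
  constructor
  · show Continuous fun x : ℝ => (!![1, x; 0, 1] : Matrix (Fin 2) (Fin 2) ℝ)
    exact continuous_mat634 continuous_const continuous_id continuous_const continuous_const
  · have e : (fun x : ℝ => (((unR x)⁻¹ : GL (Fin 2) ℝ) : Matrix (Fin 2) (Fin 2) ℝ))
        = fun x : ℝ => (!![1, -x; 0, 1] : Matrix (Fin 2) (Fin 2) ℝ) := by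
      funext x
      rw [unR_inv634, unR_val634]
    rw [e]
    exact continuous_mat634 continuous_const continuous_neg continuous_const continuous_const

theorem continuous_rotR634 : Continuous rotR := by
  rw [Units.continuous_iff]
  constructor
  · show Continuous fun θ : ℝ =>
      (!![Real.cos θ, -Real.sin θ; Real.sin θ, Real.cos θ] : Matrix (Fin 2) (Fin 2) ℝ)
    exact continuous_mat634 Real.continuous_cos Real.continuous_sin.neg Real.continuous_sin
      Real.continuous_cos
  · have e : (fun θ : ℝ => (((rotR θ)⁻¹ : GL (Fin 2) ℝ) : Matrix (Fin 2) (Fin 2) ℝ))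
        = fun θ : ℝ =>
          (!![Real.cos (-θ), -Real.sin (-θ); Real.sin (-θ), Real.cos (-θ)] :
            Matrix (Fin 2) (Fin 2) ℝ) := by
      funext θ
      rw [rotR_inv634, rotR_val634]
    rw [e]
    exact continuous_mat634 (Real.continuous_cos.comp continuous_neg)
      (Real.continuous_sin.comp continuous_neg).neg (Real.continuous_sin.comp continuous_neg)
      (Real.continuous_cos.comp continuous_neg)

theorem continuous_iwaR634 : Continuous iwaR := by
  unfold iwaR
  have h1 : Continuous fun p : ℝ × ℝ × ℝ × ℝ => dgR p.1 p.2.1 :=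
    continuous_dgR634.comp (continuous_fst.prodMk (continuous_fst.comp continuous_snd))
  have h2 : Continuous fun p : ℝ × ℝ × ℝ × ℝ => unR p.2.2.1 :=
    continuous_unR634.comp (continuous_fst.comp (continuous_snd.comp continuous_snd))
  have h3 : Continuous fun p : ℝ × ℝ × ℝ × ℝ => rotR p.2.2.2 :=
    continuous_rotR634.comp (continuous_snd.comp (continuous_snd.comp continuous_snd))
  exact (h1.mul h2).mul h3

/-! ## The box -/

/-- The parameter box `[0,1]³ × (0, 2π]`. -/
def pBox634 : Set (ℝ × ℝ × ℝ × ℝ) :=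
  Set.Icc (0 : ℝ) 1 ×ˢ Set.Icc (0 : ℝ) 1 ×ˢ Set.Icc (0 : ℝ) 1 ×ˢ Set.Ioc (0 : ℝ) (2 * Real.pi)

theorem boxR_eq634 : boxR634 = iwaR '' pBox634 := rfl

theorem iwaMR_pBox634 : iwaMR pBox634 = ENNReal.ofReal (2 * Real.pi) := by
  unfold iwaMR pBox634 angM
  rw [Measure.prod_prod, Measure.prod_prod, Measure.prod_prod, Measure.restrict_apply_self]
  simp [Real.volume_Icc, Real.volume_Ioc]

/-- `boxR634` lies in a compact set. -/
theorem boxR_subset_compact634 :
    ∃ K : Set (GL (Fin 2) ℝ), IsCompact K ∧ boxR634 ⊆ K := by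
  refine ⟨iwaR '' (Set.Icc (0 : ℝ) 1 ×ˢ Set.Icc (0 : ℝ) 1 ×ˢ Set.Icc (0 : ℝ) 1 ×ˢ
    Set.Icc (0 : ℝ) (2 * Real.pi)), ?_, ?_⟩
  · exact ((isCompact_Icc.prod (isCompact_Icc.prod (isCompact_Icc.prod isCompact_Icc)))).image
      continuous_iwaR634
  · rw [boxR_eq634]
    apply Set.image_mono
    intro p hp
    obtain ⟨h1, h2, h3, h4⟩ := hp
    exact ⟨h1, h2, h3, Set.Ioc_subset_Icc_self h4⟩

/-! ## The leaf -/

/-- Any Borel structure. -/
theorem boxPos_aux634 [MeasurableSpace (GL (Fin 2) ℝ)] [BorelSpace (GL (Fin 2) ℝ)]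
    (μ : Measure (GL (Fin 2) ℝ)) [μ.IsHaarMeasure] (c : ℝ≥0∞) (hc0 : c ≠ 0)
    (hIw : μ.restrict posR = c • Measure.map iwaR iwaMR) :
    0 < (μ boxR634).toReal := by
  have hfin : μ boxR634 < ⊤ := by
    obtain ⟨K, hK, hsub⟩ := boxR_subset_compact634
    exact lt_of_le_of_lt (measure_mono hsub) hK.measure_lt_top
  have hmeas : Measurable iwaR := continuous_iwaR634.measurable
  have hpos : 0 < μ boxR634 := by
    have h1 : (μ.restrict posR) boxR634 ≤ μ boxR634 := Measure.restrict_apply_le _ _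
    have h2 : iwaMR pBox634 ≤ Measure.map iwaR iwaMR boxR634 := by
      calc iwaMR pBox634 ≤ iwaMR (iwaR ⁻¹' boxR634) := by
            apply measure_mono
            intro p hp
            exact ⟨p, hp, rfl⟩
        _ ≤ Measure.map iwaR iwaMR boxR634 := Measure.le_map_apply hmeas.aemeasurable _
    have h3 : 0 < c * iwaMR pBox634 := by
      rw [iwaMR_pBox634]
      apply ENNReal.mul_pos hc0
      rw [Ne, ENNReal.ofReal_eq_zero, not_le]
      positivity
    calc 0 < c * iwaMR pBox634 := h3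
      _ ≤ c * Measure.map iwaR iwaMR boxR634 := by gcongr
      _ = (μ.restrict posR) boxR634 := by rw [hIw]; rfl
      _ ≤ μ boxR634 := h1
  exact ENNReal.toReal_pos hpos.ne' hfin.ne

/-- **T6.20e.2b**: `BoxPosC634` from the integration formulas. -/
theorem boxPosC634 (hInt : ArchIntOut) : BoxPosC634 := by
  intro μ hμ
  obtain ⟨c, hc0, -, hIw⟩ := hInt.iwaR μ hμ
  exact @boxPos_aux634 (borel (GL (Fin 2) ℝ)) (@BorelSpace.mk _ _ (borel _) rfl) μ hμ c hc0 hIw

end Fermat.Agent.LT.T6.H634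

end
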