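import Mathlib
import Fermat.Agent.LT.T6.Spec
import Fermat.Agent.LT.T6.H634.EllCut2

/-!
# Row LT, tower T6, leaf T6.20e.2a `EllNormC634` (registry 1729): PROVED (helper634)

OFF-MAIN.  Every `γ ∈ GL₂(ℝ)` with negative discriminant is a norm from `GL₂(ℂ)`:
with `D = det γ > 0`, `t = tr γ`, `t + 2 √D > 0` the REAL matrix
`δ = (γ + √D) / √(t + 2 √D)` satisfies `δ² = γ` (Cayley–Hamilton), and `δ δ̄ = δ²`.
-/

set_option autoImplicit false

open scoped Matrix

noncomputable section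

namespace Fermat.Agent.LT.T6.H634

open Fermat.Agent.LT.T6

/-- Cayley–Hamilton for `2 × 2` matrices. -/
theorem sq_eq_cayley634 (M : Matrix (Fin 2) (Fin 2) ℝ) :
    M * M = M.trace • M - M.det • (1 : Matrix (Fin 2) (Fin 2) ℝ) := by
  ext i j
  fin_cases i <;> fin_cases j <;>
    simp [Matrix.mul_apply, Fin.sum_univ_two, Matrix.trace_fin_two, Matrix.det_fin_two] <;> ring

/-- The real square root of an elliptic matrix, as a matrix. -/
def sqrtMat634 (M : Matrix (Fin 2) (Fin 2) ℝ) : Matrix (Fin 2) (Fin 2) ℝ :=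
  (Real.sqrt (M.trace + 2 * Real.sqrt M.det))⁻¹ •
    (M + Real.sqrt M.det • (1 : Matrix (Fin 2) (Fin 2) ℝ))

theorem sqrtMat_mul_self634 (M : Matrix (Fin 2) (Fin 2) ℝ) (hD : 0 < M.det)
    (ht : 0 < M.trace + 2 * Real.sqrt M.det) : sqrtMat634 M * sqrtMat634 M = M := by
  have hs : Real.sqrt M.det * Real.sqrt M.det = M.det := Real.mul_self_sqrt hD.le
  have hr : Real.sqrt (M.trace + 2 * Real.sqrt M.det) *
      Real.sqrt (M.trace + 2 * Real.sqrt M.det) = M.trace + 2 * Real.sqrt M.det :=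
    Real.mul_self_sqrt ht.le
  have hr0 : Real.sqrt (M.trace + 2 * Real.sqrt M.det) ≠ 0 := (Real.sqrt_pos.mpr ht).ne'
  have hCH := sq_eq_cayley634 M
  unfold sqrtMat634
  rw [Matrix.smul_mul, Matrix.mul_smul, smul_smul]
  have hexp : (M + Real.sqrt M.det • (1 : Matrix (Fin 2) (Fin 2) ℝ)) *
      (M + Real.sqrt M.det • (1 : Matrix (Fin 2) (Fin 2) ℝ))
      = (M.trace + 2 * Real.sqrt M.det) • M := by
    rw [Matrix.add_mul, Matrix.mul_add, Matrix.mul_add, hCH]
    simp only [Matrix.smul_mul, Matrix.mul_smul, Matrix.one_mul, Matrix.mul_one, smul_smul, hs]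
    ext i j
    simp only [Matrix.add_apply, Matrix.sub_apply, Matrix.smul_apply, smul_eq_mul]
    ring
  rw [hexp, smul_smul]
  have hc : (Real.sqrt (M.trace + 2 * Real.sqrt M.det))⁻¹ *
      (Real.sqrt (M.trace + 2 * Real.sqrt M.det))⁻¹ * (M.trace + 2 * Real.sqrt M.det) = 1 := by
    have h1 : (Real.sqrt (M.trace + 2 * Real.sqrt M.det))⁻¹ *
        (Real.sqrt (M.trace + 2 * Real.sqrt M.det))⁻¹ *
        (Real.sqrt (M.trace + 2 * Real.sqrt M.det) *
          Real.sqrt (M.trace + 2 * Real.sqrt M.det)) = 1 := by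
      field_simp
    rwa [hr] at h1
  rw [hc, one_smul]

/-- **T6.20e.2a**: `EllNormC634`. -/
theorem ellNormC634 : EllNormC634 := by
  intro γ hdisc
  have hD := det_pos_of_disc_neg634 γ hdisc
  set M : Matrix (Fin 2) (Fin 2) ℝ := (γ : Matrix (Fin 2) (Fin 2) ℝ) with hM
  have hs : 0 < Real.sqrt M.det := Real.sqrt_pos.mpr hD
  have hsq : Real.sqrt M.det * Real.sqrt M.det = M.det := Real.mul_self_sqrt hD.le
  have hlt : M.trace ^ 2 < 4 * M.det := by
    have : M.trace ^ 2 - 4 * M.det < 0 := hdisc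
    linarith
  have ht : 0 < M.trace + 2 * Real.sqrt M.det := by
    by_contra hcon
    have hcon := not_lt.mp hcon
    have h1 : 2 * Real.sqrt M.det ≤ -M.trace := by linarith
    have h2 : (2 * Real.sqrt M.det) ^ 2 ≤ (-M.trace) ^ 2 :=
      pow_le_pow_left₀ (by positivity) h1 2
    nlinarith
  have hmul := sqrtMat_mul_self634 M hD ht
  have hdet : (sqrtMat634 M).det ≠ 0 := by
    intro h0
    have : (sqrtMat634 M * sqrtMat634 M).det = 0 := by rw [Matrix.det_mul, h0, zero_mul]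
    rw [hmul] at this
    exact hD.ne' this
  set δR : GL (Fin 2) ℝ := Matrix.GeneralLinearGroup.mkOfDetNeZero (sqrtMat634 M) hdet with hδR
  have hδsq : δR * δR = γ := by
    apply Units.ext
    change sqrtMat634 M * sqrtMat634 M = M
    exact hmul
  refine ⟨Matrix.GeneralLinearGroup.map (algebraMap ℝ ℂ) δR, ?_⟩
  have hfix : glAut (starRingAut : ℂ ≃+* ℂ) (Matrix.GeneralLinearGroup.map (algebraMap ℝ ℂ) δR)
      = Matrix.GeneralLinearGroup.map (algebraMap ℝ ℂ) δR := by
    apply Units.ext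
    ext i j
    simp [glAut, Matrix.GeneralLinearGroup.map, Matrix.map_apply]
  have hN : twNorm (starRingAut : ℂ ≃+* ℂ) 2 (Matrix.GeneralLinearGroup.map (algebraMap ℝ ℂ) δR)
      = Matrix.GeneralLinearGroup.map (algebraMap ℝ ℂ) γ := by
    unfold twNorm
    simp only [twN, map_one, mul_one]
    rw [hfix, ← map_mul, hδsq]
  rw [hN]

end Fermat.Agent.LT.T6.H634

end
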